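import Fermat.Agent.Jacobian.Cell.Basic

/-!
# The ring of the big cell

The coefficients of the normalised family, subject to the conditions that the first element is one
and that the span is stable under the ring of the affine curve, represent the cell. Its ring is
generated by finitely many coefficients: the elements of high pole order come from functions on the
curve, and multiplication by one function expresses high coefficients through low ones.
-/

set_option autoImplicit false

noncomputable section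

universe u

namespace FermatAgent.Jacobian.CurveDatum

open scoped TensorProduct

variable {k : Type u} [Field k] (D : CurveDatum k) {A : Type u} [CommRing A] [Algebra k A]

/-- A series with one term at `-l` and given coefficients above the origin. -/
def cellSeries (c : ℕ × ℕ → A) (l : ℕ) : LaurentSeries A :=
  HahnSeries.single (-(l : ℤ)) 1 +
    HahnSeries.single (1 : ℤ) 1 * HahnSeries.ofPowerSeries ℤ A (PowerSeries.mk fun j => c (l, j))

theorem isNormalised_cellSeries (c : ℕ × ℕ → A) : IsNormalised (cellSeries c) := fun l i hi => by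
  rw [cellSeries, HahnSeries.coeff_add, show i = (i - 1) + 1 by omega,
    HahnSeries.coeff_single_mul_add, one_mul, HahnSeries.ofPowerSeries_apply,
    HahnSeries.embDomain_of_notMem_range, add_zero, HahnSeries.coeff_single]
  · split <;> rfl
  · rintro ⟨n, hn⟩
    simp at hn
    omega

theorem coeff_cellSeries_succ (c : ℕ × ℕ → A) (l j : ℕ) :
    (cellSeries c l).coeff ((j : ℤ) + 1) = c (l, j) := by
  rw [cellSeries, HahnSeries.coeff_add, HahnSeries.coeff_single_mul_add, one_mul,
    HahnSeries.ofPowerSeries_apply_coeff, PowerSeries.coeff_mk,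
    HahnSeries.coeff_single_of_ne (by omega), zero_add]

theorem eq_cellSeries {v : ℕ → LaurentSeries A} (hv : IsNormalised v) (c : ℕ × ℕ → A)
    (hc : ∀ l j : ℕ, (v l).coeff ((j : ℤ) + 1) = c (l, j)) : cellSeries c = v := by
  funext l
  ext i
  rcases le_or_gt i 0 with hi | hi
  · rw [isNormalised_cellSeries c l i hi, hv l i hi]
  · obtain ⟨j, rfl⟩ : ∃ j : ℕ, i = (j : ℤ) + 1 := ⟨(i - 1).toNat, by omega⟩
    rw [coeff_cellSeries_succ, hc]

theorem lsMap_cellSeries {B : Type u} [CommRing B] (g : A →+* B) (c : ℕ × ℕ → A) (l : ℕ) :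
    lsMap g (cellSeries c l) = cellSeries (fun z => g (c z)) l := by
  ext i
  rw [coeff_lsMap]
  rcases le_or_gt i 0 with hi | hi
  · rw [isNormalised_cellSeries c l i hi, isNormalised_cellSeries _ l i hi]
    split <;> simp
  · obtain ⟨j, rfl⟩ : ∃ j : ℕ, i = (j : ℤ) + 1 := ⟨(i - 1).toNat, by omega⟩
    rw [coeff_cellSeries_succ, coeff_cellSeries_succ]

/-- The tautological family. -/
abbrev freeSeries : ℕ → LaurentSeries (MvPolynomial (ℕ × ℕ) k) := cellSeries MvPolynomial.X

/-- A bound for the poles of a multiple of a tautological series. -/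
def cellBound (r : D.R) (l : ℕ) : ℕ :=
  (exists_coeff_eq_zero_below
    (D.expR (MvPolynomial (ℕ × ℕ) k) r * freeSeries l)).choose

/-- The failure of the tautological family to be stable. -/
def cellDefect (r : D.R) (l : ℕ) : LaurentSeries (MvPolynomial (ℕ × ℕ) k) :=
  D.expR _ r * freeSeries l -
    cellComb freeSeries (D.cellBound r l) (D.expR _ r * freeSeries l)

/-- The equations of the cell. -/
def cellIdeal : Ideal (MvPolynomial (ℕ × ℕ) k) :=
  Ideal.span ((Set.range fun j : ℕ => MvPolynomial.X (0, j)) ∪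
    Set.range fun z : (D.R × ℕ) × ℤ => (D.cellDefect z.1.1 z.1.2).coeff z.2)

/-- The ring of the cell. -/
abbrev CellRing : Type u := MvPolynomial (ℕ × ℕ) k ⧸ D.cellIdeal

/-- The universal family. -/
def univVec : ℕ → LaurentSeries D.CellRing :=
  cellSeries fun z => Ideal.Quotient.mkₐ k D.cellIdeal (MvPolynomial.X z)

theorem lsMap_freeSeries (l : ℕ) :
    lsMap (Ideal.Quotient.mkₐ k D.cellIdeal).toRingHom (freeSeries l) = D.univVec l :=
  lsMap_cellSeries _ _ l

theorem univVec_zero : D.univVec 0 = 1 := by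
  ext i
  rcases le_or_gt i 0 with hi | hi
  · rw [univVec, isNormalised_cellSeries _ 0 i hi, HahnSeries.coeff_one, Nat.cast_zero, neg_zero]
    split <;> simp [*]
  · obtain ⟨j, rfl⟩ : ∃ j : ℕ, i = (j : ℤ) + 1 := ⟨(i - 1).toNat, by omega⟩
    rw [univVec, coeff_cellSeries_succ, HahnSeries.coeff_one, if_neg (by omega),
      Ideal.Quotient.mkₐ_eq_mk, Ideal.Quotient.eq_zero_iff_mem]
    exact Ideal.subset_span (Or.inl ⟨j, rfl⟩)

theorem univVec_stable (r : D.R) (l : ℕ) :
    D.expR D.CellRing r * D.univVec l ∈ Submodule.span D.CellRing (Set.range D.univVec) := by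
  set π := Ideal.Quotient.mkₐ k D.cellIdeal
  have hdef : lsMap π.toRingHom (D.cellDefect r l) = 0 := by
    ext i
    rw [coeff_lsMap, HahnSeries.coeff_zero]
    exact Ideal.Quotient.eq_zero_iff_mem.mpr (Ideal.subset_span (Or.inr ⟨((r, l), i), rfl⟩))
  rw [cellDefect, map_sub, map_mul, D.lsMap_expR π r, D.lsMap_freeSeries, sub_eq_zero] at hdef
  rw [hdef]
  have h := lsMap_mem_span π
    (cellComb_mem_span freeSeries (D.cellBound r l) (D.expR _ r * freeSeries l))
  have e : (fun l => lsMap π.toRingHom (freeSeries l)) = D.univVec := funext D.lsMap_freeSeries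
  rwa [e] at h

/-- The universal point of the cell. -/
def univCell : D.Sub D.CellRing := D.cellSub D.univVec D.univVec_stable

theorem inCell_univCell : D.InCell D.univCell :=
  D.inCell_cellSub (isNormalised_cellSeries _) D.univVec_zero

theorem vec_univCell : (D.inCell_univCell).vec = D.univVec :=
  D.inCell_univCell.vec_eq (isNormalised_cellSeries _) fun l =>
    D.mem_cellSub.mpr (Submodule.subset_span ⟨l, rfl⟩)

variable {D} {M : D.Sub A}

/-- The evaluation at a point of the cell. -/
def InCell.evalPoly (hM : D.InCell M) : MvPolynomial (ℕ × ℕ) k →ₐ[k] A :=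
  MvPolynomial.aeval fun z => (hM.vec z.1).coeff ((z.2 : ℤ) + 1)

theorem InCell.lsMap_evalPoly (hM : D.InCell M) (l : ℕ) :
    lsMap hM.evalPoly.toRingHom (freeSeries l) = hM.vec l := by
  rw [lsMap_cellSeries]
  refine congrFun (eq_cellSeries hM.isNormalised_vec _ fun a b => ?_) l
  exact (MvPolynomial.aeval_X (fun z : ℕ × ℕ => (hM.vec z.1).coeff ((z.2 : ℤ) + 1)) (a, b)).symm

theorem InCell.cellIdeal_le (hM : D.InCell M) : ∀ a ∈ D.cellIdeal, hM.evalPoly a = 0 := by
  have hle : D.cellIdeal ≤ RingHom.ker hM.evalPoly.toRingHom := by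
    refine Ideal.span_le.mpr ?_
    rintro _ (⟨j, rfl⟩ | ⟨⟨⟨r, l⟩, i⟩, rfl⟩)
    · show hM.evalPoly (MvPolynomial.X (0, j)) = 0
      rw [InCell.evalPoly, MvPolynomial.aeval_X, hM.vec_zero, HahnSeries.coeff_one,
        if_neg (by omega)]
    · have hx : lsMap hM.evalPoly.toRingHom (D.expR _ r * freeSeries l) =
          D.expR A r * hM.vec l := by
        rw [map_mul, D.lsMap_expR hM.evalPoly r, hM.lsMap_evalPoly]
      have hL : ∀ i : ℤ, i < -(D.cellBound r l : ℤ) → (D.expR A r * hM.vec l).coeff i = 0 :=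
        fun i hi => by
          rw [← hx, coeff_lsMap, (exists_coeff_eq_zero_below
            (D.expR (MvPolynomial (ℕ × ℕ) k) r * freeSeries l)).choose_spec i hi, map_zero]
      have h0 : lsMap hM.evalPoly.toRingHom (D.cellDefect r l) = 0 := by
        rw [cellDefect, map_sub, hx, sub_eq_zero, cellComb, map_sum]
        refine Eq.trans (hM.eq_cellComb (D.cell_expR_mul_mem r (hM.vec_mem l)) hL)
          (Finset.sum_congr rfl fun a _ => ?_)
        rw [lsMap_smul, hM.lsMap_evalPoly, ← hx, coeff_lsMap]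
      show hM.evalPoly _ = 0
      have h1 := congrArg (fun y : LaurentSeries A => y.coeff i) h0
      simpa using h1
  exact fun a ha => hle ha

/-- The classifying map of a point of the cell. -/
def InCell.cellHom (hM : D.InCell M) : D.CellRing →ₐ[k] A :=
  Ideal.Quotient.liftₐ D.cellIdeal hM.evalPoly hM.cellIdeal_le

theorem InCell.bc_cellHom (hM : D.InCell M) : D.bc hM.cellHom D.univCell = M := by
  refine (D.inCell_univCell.bc hM.cellHom).ext hM ?_
  rw [D.inCell_univCell.vec_bc hM.cellHom]
  funext l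
  show lsMap hM.cellHom.toRingHom (D.inCell_univCell.vec l) = _
  rw [vec_univCell, univVec, lsMap_cellSeries]
  exact congrFun (eq_cellSeries hM.isNormalised_vec _ fun a b =>
    (MvPolynomial.aeval_X (fun z : ℕ × ℕ => (hM.vec z.1).coeff ((z.2 : ℤ) + 1)) (a, b)).symm) l

theorem InCell.cellHom_unique (hM : D.InCell M) {φ : D.CellRing →ₐ[k] A}
    (hφ : D.bc φ D.univCell = M) : φ = hM.cellHom := by
  subst hφ
  refine Ideal.Quotient.algHom_ext k (MvPolynomial.algHom_ext fun z => ?_)
  show φ (Ideal.Quotient.mkₐ k D.cellIdeal (MvPolynomial.X z)) = hM.evalPoly (MvPolynomial.X z)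
  rw [InCell.evalPoly, MvPolynomial.aeval_X, D.inCell_univCell.coeff_vec_bc φ, vec_univCell,
    univVec, coeff_cellSeries_succ]

variable (D) in
/-- **The cell is represented by its ring.** -/
def cellEquiv : (D.CellRing →ₐ[k] A) ≃ {M : D.Sub A // D.InCell M} where
  toFun φ := ⟨D.bc φ D.univCell, D.inCell_univCell.bc φ⟩
  invFun M := M.2.cellHom
  left_inv φ := ((D.inCell_univCell.bc φ).cellHom_unique rfl).symm
  right_inv M := Subtype.ext M.2.bc_cellHom

/-- Naturality of the representation. -/
theorem bc_cellEquiv {B : Type u} [CommRing B] [Algebra k B] (g : A →ₐ[k] B)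
    (φ : D.CellRing →ₐ[k] A) :
    D.bc g (D.cellEquiv φ).1 = (D.cellEquiv (g.comp φ)).1 :=
  D.bc_bc φ g D.univCell

variable (D) in
/-- Functions of every pole order from some positive one on. -/
theorem exists_pole_nat : ∃ N : ℕ, 0 < N ∧ ∀ n : ℕ, N ≤ n →
    ∃ r : D.R, (D.exp r).coeff (-(n : ℤ)) ≠ 0 ∧ ∀ i < -(n : ℤ), (D.exp r).coeff i = 0 := by
  obtain ⟨n₀, hn₀⟩ := D.exists_pole
  exact ⟨n₀.toNat + 1, Nat.succ_pos _, fun n hn => hn₀ n (by omega)⟩

theorem InCell.coeff_vec_mem_of_low (hM : D.InCell M) (S : Subalgebra k A) (N : ℕ)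
    (hN : ∀ n : ℕ, N ≤ n →
      ∃ r : D.R, (D.exp r).coeff (-(n : ℤ)) ≠ 0 ∧ ∀ i < -(n : ℤ), (D.exp r).coeff i = 0)
    {j : ℤ} (hj : ∀ l < N, (hM.vec l).coeff j ∈ S) : ∀ l, (hM.vec l).coeff j ∈ S := by
  intro l
  induction l using Nat.strong_induction_on with
  | _ q ih =>
    rcases lt_or_ge q N with hq | hq
    · exact hj q hq
    obtain ⟨r, hlead, hr⟩ := hN q hq
    have hx : D.expR A r ∈ M := by simpa using D.cell_expR_mul_mem r hM.1
    have h := congrArg (fun y : LaurentSeries A => y.coeff j)
      (hM.eq_cellComb hx (L := q) fun i hi => by rw [D.coeff_expR, hr i hi, map_zero])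
    simp only [coeff_cellComb, D.coeff_expR, Finset.sum_range_succ] at h
    have hmem : algebraMap k A ((D.exp r).coeff (-(q : ℤ))) * (hM.vec q).coeff j ∈ S := by
      rw [← sub_eq_of_eq_add' h]
      exact sub_mem (S.algebraMap_mem _) (sum_mem fun a ha =>
        mul_mem (S.algebraMap_mem _) (ih a (Finset.mem_range.mp ha)))
    have h2 := mul_mem (S.algebraMap_mem ((D.exp r).coeff (-(q : ℤ)))⁻¹) hmem
    rwa [← mul_assoc, ← map_mul, inv_mul_cancel₀ hlead, map_one, one_mul] at h2

theorem coeff_mul_mem_subalgebra {S : Subalgebra k A} {n i : ℤ} {x y : LaurentSeries A}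
    (hx : x ∈ fil A n) (hxS : ∀ a, x.coeff a ∈ S) (hy : ∀ b ≤ i - n, y.coeff b ∈ S) :
    (x * y).coeff i ∈ S := by
  rw [HahnSeries.coeff_mul]
  refine sum_mem fun z hz => ?_
  rcases lt_or_ge z.1 n with h | h
  · rw [hx _ h, zero_mul]
    exact zero_mem S
  · refine mul_mem (hxS _) (hy _ ?_)
    simp only [Finset.mem_antidiagonal] at hz
    omega

theorem InCell.coeff_vec_mem (hM : D.InCell M) (S : Subalgebra k A) (N : ℕ) (hN0 : 0 < N)
    (hN : ∀ n : ℕ, N ≤ n →
      ∃ r : D.R, (D.exp r).coeff (-(n : ℤ)) ≠ 0 ∧ ∀ i < -(n : ℤ), (D.exp r).coeff i = 0)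
    (hS : ∀ l < N, ∀ j < N, (hM.vec l).coeff ((j : ℤ) + 1) ∈ S) :
    ∀ (l : ℕ) (i : ℤ), (hM.vec l).coeff i ∈ S := by
  obtain ⟨r, hlead, hr⟩ := hN N le_rfl
  set e := algebraMap k A ((D.exp r).coeff (-(N : ℤ))) with he
  set r' : LaurentSeries A := D.expR A r - HahnSeries.single (-(N : ℤ)) e with hr'
  have hr'S : ∀ a, r'.coeff a ∈ S := fun a => by
    rw [hr', HahnSeries.coeff_sub, D.coeff_expR, HahnSeries.coeff_single]
    split
    · exact sub_mem (S.algebraMap_mem _) (S.algebraMap_mem _)
    · exact sub_mem (S.algebraMap_mem _) (zero_mem S)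
  have hr'f : r' ∈ fil A (-(N : ℤ) + 1) := fun a ha => by
    rw [hr', HahnSeries.coeff_sub, D.coeff_expR, HahnSeries.coeff_single]
    split
    · next h => rw [h, he, sub_self]
    · rw [hr a (by omega), map_zero, sub_zero]
  suffices H : ∀ (j : ℕ) (l : ℕ) (i : ℤ), i ≤ j → (hM.vec l).coeff i ∈ S from
    fun l i => H i.toNat l i (by omega)
  intro j
  induction j using Nat.strong_induction_on with
  | _ j ih =>
    intro l i hi
    rcases lt_or_eq_of_le hi with hlt | hij
    · rcases le_or_gt i 0 with hi0 | hi0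
      · rw [hM.isNormalised_vec l i hi0]
        split
        · exact one_mem S
        · exact zero_mem S
      · exact ih i.toNat (by omega) l i (by omega)
    subst hij
    refine hM.coeff_vec_mem_of_low S N hN (fun a ha => ?_) l
    clear l
    rcases Nat.eq_zero_or_pos j with hj0 | hj0
    · subst hj0
      rw [Nat.cast_zero, hM.isNormalised_vec a _ le_rfl]
      split
      · exact one_mem S
      · exact zero_mem S
    rcases le_or_gt j N with hjN | hjN
    · have := hS a ha (j - 1) (by omega)
      rwa [show (((j - 1 : ℕ) : ℤ) + 1) = (j : ℤ) by omega] at this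
    set x := D.expR A r * hM.vec a with hxdef
    have hb : ∀ i : ℤ, i < -((N + a : ℕ) : ℤ) → x.coeff i = 0 := fun i hi => by
      refine mul_mem_fil (i := -(N : ℤ)) (j := -(a : ℤ)) (fun b hb => ?_) (fun b hb => ?_) i
        (by omega)
      · rw [D.coeff_expR, hr b hb, map_zero]
      · rw [hM.isNormalised_vec a b (by omega), if_neg (by omega)]
    have hdec : ∀ i : ℤ, x.coeff i = e * (hM.vec a).coeff (i + N) + (r' * hM.vec a).coeff i :=
      fun i => by
        rw [hxdef, hr', sub_mul, HahnSeries.coeff_sub]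
        conv_rhs => enter [2, 2]; rw [show i = i + (N : ℤ) + -(N : ℤ) by omega,
          HahnSeries.coeff_single_mul_add]
        ring
    have hlow : ∀ i : ℤ, i + N ≤ j → (r' * hM.vec a).coeff i ∈ S := fun i hi =>
      coeff_mul_mem_subalgebra hr'f hr'S fun b hb => by
        exact ih (j - 1) (by omega) a b (by omega)
    have hneg : ∀ c : ℕ, x.coeff (-(c : ℤ)) ∈ S := fun c => by
      rw [hdec]
      exact add_mem (mul_mem (S.algebraMap_mem _) (ih N hjN a _ (by omega))) (hlow _ (by omega))
    have hsum : x.coeff ((j : ℤ) - N) ∈ S := by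
      rw [hM.eq_cellComb (x := x) (D.cell_expR_mul_mem r (hM.vec_mem a)) hb, coeff_cellComb]
      exact sum_mem fun c _ => mul_mem (hneg c) (ih (j - N) (by omega) c _ (by omega))
    rw [hdec, sub_add_cancel] at hsum
    have h2 := mul_mem (S.algebraMap_mem ((D.exp r).coeff (-(N : ℤ)))⁻¹)
      (sub_mem hsum (hlow ((j : ℤ) - N) (by omega)))
    rwa [add_sub_cancel_right, ← mul_assoc, he, ← map_mul, inv_mul_cancel₀ hlead, map_one,
      one_mul] at h2

variable (D) in
/-- The ring of the cell is of finite type. -/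
theorem finiteType_cellRing : Algebra.FiniteType k D.CellRing := by
  classical
  obtain ⟨N, hN0, hN⟩ := D.exists_pole_nat
  let π := Ideal.Quotient.mkₐ k D.cellIdeal
  let gens : Finset D.CellRing :=
    (Finset.range N ×ˢ Finset.range N).image fun z => π (MvPolynomial.X z)
  refine ⟨gens, eq_top_iff.mpr fun x _ => ?_⟩
  have key : ∀ z, π (MvPolynomial.X z) ∈ Algebra.adjoin k (gens : Set D.CellRing) := by
    rintro ⟨l, j⟩
    have h := D.inCell_univCell.coeff_vec_mem (Algebra.adjoin k (gens : Set D.CellRing)) N hN0 hN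
      (fun a ha b hb => by
        rw [vec_univCell, univVec, coeff_cellSeries_succ]
        exact Algebra.subset_adjoin (Finset.mem_image.mpr ⟨(a, b),
          Finset.mem_product.mpr ⟨Finset.mem_range.mpr ha, Finset.mem_range.mpr hb⟩, rfl⟩))
      l ((j : ℤ) + 1)
    rwa [vec_univCell, univVec, coeff_cellSeries_succ] at h
  obtain ⟨q, rfl⟩ := Ideal.Quotient.mkₐ_surjective k D.cellIdeal x
  induction q using MvPolynomial.induction_on with
  | C a => exact Subalgebra.algebraMap_mem _ a
  | add p q hp hq =>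
    rw [map_add]
    exact add_mem (hp trivial) (hq trivial)
  | mul_X p z hp =>
    rw [map_mul]
    exact mul_mem (hp trivial) (key z)

end FermatAgent.Jacobian.CurveDatum
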