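import Fermat.Agent.Jacobian.Cell.Ring
import Mathlib.LinearAlgebra.Charpoly.Basic
import Mathlib.RingTheory.Jacobson.Ring
import Mathlib.RingTheory.Nakayama
import Mathlib.RingTheory.FiniteStability
import Mathlib.FieldTheory.IsAlgClosed.Basic

/-!
# Points of the cell are lattices

Over the field a point of the cell is a fractional ideal of the Dedekind ring, so near every
rational point it has one generator. For coefficients of finite type the generator lifts by
Nakayama, and as the point contains one it is invertible; the universal case gives the general one.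
-/

set_option autoImplicit false

noncomputable section

universe u

namespace FermatAgent.Jacobian.CurveDatum

open scoped TensorProduct Pointwise
open Polynomial

variable {k : Type u} [Field k] (D : CurveDatum k) {A : Type u} [CommRing A] [Algebra k A]
  {M : D.Sub A}

theorem cell_expR_add (a b : D.R) : D.expR A (a + b) = D.expR A a + D.expR A b := by
  simp only [expR, map_add]

theorem lsMap_mem_bc_lift (φ : A →ₐ[k] k) {U : D.Sub A} {y : LaurentSeries k}
    (hy : y ∈ D.bc φ U) : ∃ u ∈ U, lsMap φ.toRingHom u = y := by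
  induction hy using Submodule.span_induction with
  | mem z hz => exact hz
  | zero => exact ⟨0, zero_mem U, map_zero _⟩
  | add y z _ _ hy hz =>
    obtain ⟨u, hu, rfl⟩ := hy
    obtain ⟨v, hv, rfl⟩ := hz
    exact ⟨u + v, add_mem hu hv, map_add _ _ _⟩
  | smul q z _ hz =>
    obtain ⟨u, hu, rfl⟩ := hz
    induction q using TensorProduct.induction_on with
    | zero => exact ⟨0, zero_mem U, by rw [map_zero, zero_smul]⟩
    | tmul a r =>
      refine ⟨(algebraMap k A a ⊗ₜ[k] r : D.RA A) • u, U.smul_mem _ hu, ?_⟩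
      rw [D.cell_smul_tmul, D.cell_smul_tmul, lsMap_smul, map_mul, D.lsMap_expR]
      congr 1
      exact φ.commutes a
    | add q q' hq hq' =>
      obtain ⟨v, hv, hv'⟩ := hq
      obtain ⟨w, hw, hw'⟩ := hq'
      exact ⟨v + w, add_mem hv hw, by rw [map_add, hv', hw', add_smul]⟩

variable {D}

theorem InCell.exists_finite_span (hM : D.InCell M) : ∃ N : ℕ, ∀ l,
    hM.vec l ∈ Submodule.span (D.RA A) (hM.vec '' Set.Iio N) := by
  obtain ⟨N, hN0, hN⟩ := D.exists_pole_nat
  refine ⟨N, fun q => ?_⟩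
  induction q using Nat.strong_induction_on with
  | _ q ih =>
    rcases lt_or_ge q N with hq | hq
    · exact Submodule.subset_span ⟨q, hq, rfl⟩
    obtain ⟨r, hlead, hr⟩ := hN q hq
    have h1 : (1 : LaurentSeries A) ∈ Submodule.span (D.RA A) (hM.vec '' Set.Iio N) :=
      Submodule.subset_span ⟨0, hN0, hM.vec_zero⟩
    have hx : D.expR A r ∈ M := by simpa using D.cell_expR_mul_mem r hM.1
    have h := hM.eq_cellComb hx (L := q) fun i hi => by rw [D.coeff_expR, hr i hi, map_zero]
    rw [cellComb, Finset.sum_range_succ] at h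
    have hS : (D.expR A r).coeff (-(q : ℤ)) • hM.vec q ∈
        Submodule.span (D.RA A) (hM.vec '' Set.Iio N) := by
      rw [← sub_eq_of_eq_add' h]
      exact sub_mem (by simpa using D.cell_expR_mul_mem r h1) (Submodule.sum_mem _ fun a ha =>
        D.cell_coeff_smul_mem _ (ih a (Finset.mem_range.mp ha)))
    rw [D.coeff_expR] at hS
    have h2 := D.cell_coeff_smul_mem (algebraMap k A ((D.exp r).coeff (-(q : ℤ)))⁻¹) hS
    rwa [smul_smul, ← map_mul, inv_mul_cancel₀ hlead, map_one, one_smul] at h2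

theorem InCell.fg (hM : D.InCell M) : M.FG := by
  obtain ⟨N, hN⟩ := hM.exists_finite_span
  rw [Submodule.fg_def]
  refine ⟨hM.vec '' Set.Iio N, (Set.finite_Iio N).image _,
    le_antisymm (Submodule.span_le.mpr ?_) fun x hx => ?_⟩
  · rintro _ ⟨l, -, rfl⟩
    exact hM.vec_mem l
  · obtain ⟨L, hL⟩ := exists_coeff_eq_zero_below x
    rw [hM.eq_cellComb hx hL]
    exact Submodule.sum_mem _ fun l _ => D.cell_coeff_smul_mem _ (hN l)

/-- Over the field a point of the cell is multiplied into the ring by a nonzero function. -/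
theorem InCell.exists_denominator {M : D.Sub k} (hM : D.InCell M) [IsAlgClosed k] :
    ∃ s : D.R, s ≠ 0 ∧ ∀ m ∈ M, ∃ b, D.expR k s * m = D.expR k b := by
  obtain ⟨N, hN0, hN⟩ := D.exists_pole_nat
  obtain ⟨r, hlead, hr⟩ := hN N le_rfl
  let Mk : Submodule k (LaurentSeries k) :=
    { carrier := M, add_mem' := add_mem, zero_mem' := zero_mem M,
      smul_mem' := fun c _ hx => D.cell_coeff_smul_mem c hx }
  have hconst : ∀ (c : k) (x : LaurentSeries k), D.expR k (algebraMap k D.R c) * x = c • x :=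
    fun c x => by
      rw [D.expR_algebraMap, Algebra.algebraMap_self, RingHom.id_apply,
        HahnSeries.C_mul_eq_smul]
  let E : D.R →ₗ[k] LaurentSeries k :=
    { toFun := D.expR k
      map_add' := D.cell_expR_add
      map_smul' := fun c a => by rw [Algebra.smul_def, D.expR_mul, hconst, RingHom.id_apply] }
  let Φ : D.R →ₐ[k] Module.End k Mk :=
    { toFun := fun b =>
        { toFun := fun x => ⟨D.expR k b * x.1, D.cell_expR_mul_mem b x.2⟩
          map_add' := fun x y => Subtype.ext (mul_add _ _ _)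
          map_smul' := fun c x => Subtype.ext (mul_smul_comm c _ x.1) }
      map_one' := LinearMap.ext fun x => Subtype.ext (by
        show D.expR k 1 * x.1 = x.1
        rw [D.expR_one, one_mul])
      map_mul' := fun a b => LinearMap.ext fun x => Subtype.ext (by
        show D.expR k (a * b) * x.1 = D.expR k a * (D.expR k b * x.1)
        rw [D.expR_mul, mul_assoc])
      map_zero' := LinearMap.ext fun x => Subtype.ext (by
        show D.expR k 0 * x.1 = 0
        rw [show D.expR k 0 = 0 from map_zero E, zero_mul])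
      map_add' := fun a b => LinearMap.ext fun x => Subtype.ext (by
        show D.expR k (a + b) * x.1 = D.expR k a * x.1 + D.expR k b * x.1
        rw [D.cell_expR_add, add_mul])
      commutes' := fun c => LinearMap.ext fun x => Subtype.ext (hconst c x.1) }
  let P : Submodule k Mk := (LinearMap.range E).comap Mk.subtype
  have hPT : P ≤ P.comap (Φ r) := by
    rintro x ⟨b, hb⟩
    refine ⟨r * b, ?_⟩
    show D.expR k (r * b) = D.expR k r * x.1
    rw [D.expR_mul]
    exact congrArg (D.expR k r * ·) hb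
  let w : ℕ → Mk := fun l => ⟨hM.vec l, hM.vec_mem l⟩
  have hdec : ∀ (x : Mk) (L : ℕ), (∀ i : ℤ, i < -(L : ℤ) → x.1.coeff i = 0) →
      x = ∑ l ∈ Finset.range (L + 1), x.1.coeff (-(l : ℤ)) • w l := fun x L hL =>
    Subtype.ext (by
      rw [Submodule.coe_sum]
      exact hM.eq_cellComb x.2 hL)
  have hw : ∀ q, P.mkQ (w q) ∈ Submodule.span k ((fun l => P.mkQ (w l)) '' Set.Iio N) := by
    intro q
    induction q using Nat.strong_induction_on with
    | _ q ih =>
      rcases lt_or_ge q N with hq | hq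
      · exact Submodule.subset_span ⟨q, hq, rfl⟩
      obtain ⟨r', hlead', hr'⟩ := hN q hq
      have hr'M : D.expR k r' ∈ M := by simpa using D.cell_expR_mul_mem r' hM.1
      have h0 : P.mkQ ⟨D.expR k r', hr'M⟩ = 0 := (Submodule.Quotient.mk_eq_zero P).mpr ⟨r', rfl⟩
      rw [hdec ⟨D.expR k r', hr'M⟩ q fun i hi => by
        show (D.expR k r').coeff i = 0
        rw [D.coeff_expR, hr' i hi, map_zero], map_sum, Finset.sum_range_succ, map_smul,
        add_comm, add_eq_zero_iff_eq_neg] at h0
      have hmem : (D.expR k r').coeff (-(q : ℤ)) • P.mkQ (w q) ∈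
          Submodule.span k ((fun l => P.mkQ (w l)) '' Set.Iio N) := by
        rw [h0]
        refine neg_mem (Submodule.sum_mem _ fun l hl => ?_)
        rw [map_smul]
        exact Submodule.smul_mem _ _ (ih l (Finset.mem_range.mp hl))
      rwa [D.coeff_expR, Algebra.algebraMap_self, RingHom.id_apply,
        Submodule.smul_mem_iff _ hlead'] at hmem
  have : Module.Finite k (Mk ⧸ P) := by
    refine Module.finite_def.mpr (Submodule.fg_def.mpr
      ⟨_, (Set.finite_Iio N).image fun l => P.mkQ (w l), eq_top_iff.mpr fun z _ => ?_⟩)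
    obtain ⟨x, rfl⟩ := P.mkQ_surjective z
    obtain ⟨L, hL⟩ := exists_coeff_eq_zero_below x.1
    rw [hdec x L hL, map_sum]
    refine Submodule.sum_mem _ fun l _ => ?_
    rw [map_smul]
    exact Submodule.smul_mem _ _ (hw l)
  let Tb := P.mapQ P (Φ r) hPT
  have key : ∀ (q : k[X]) (z : Mk), aeval Tb q (P.mkQ z) = P.mkQ (aeval (Φ r) q z) := by
    intro q
    induction q using Polynomial.induction_on with
    | C c =>
      intro z
      rw [aeval_C, aeval_C, Module.algebraMap_end_apply, Module.algebraMap_end_apply, map_smul]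
    | add a b ha hb =>
      intro z
      rw [map_add, map_add, LinearMap.add_apply, LinearMap.add_apply, ha, hb, map_add]
    | monomial n a ih =>
      intro z
      rw [pow_succ, ← mul_assoc, map_mul (aeval Tb) (C a * X ^ n) X,
        map_mul (aeval (Φ r)) (C a * X ^ n) X, aeval_X, aeval_X, Module.End.mul_apply,
        Module.End.mul_apply, ← ih]
      rfl
  have hp := LinearMap.charpoly_monic Tb
  refine ⟨aeval r Tb.charpoly, fun h0 => ?_, fun m hm => ?_⟩
  · have hint : IsIntegral k r := ⟨Tb.charpoly, hp, h0⟩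
    obtain ⟨c, rfl⟩ := minpoly.mem_range_of_degree_eq_one k r
      (IsAlgClosed.degree_eq_one_of_irreducible k (minpoly.irreducible hint))
    exact hlead (by
      rw [D.exp_algebraMap, HahnSeries.C_apply, HahnSeries.coeff_single_of_ne (by omega)])
  · have h := key Tb.charpoly ⟨m, hm⟩
    rw [LinearMap.aeval_self_charpoly Tb, LinearMap.zero_apply, aeval_algHom_apply] at h
    obtain ⟨b, hb⟩ := (Submodule.Quotient.mk_eq_zero P).mp h.symm
    exact ⟨b, hb.symm⟩

/-- Over the field a point of the cell has one generator modulo a maximal ideal of the ring. -/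
theorem InCell.exists_local_generator {M : D.Sub k} (hM : D.InCell M) [IsAlgClosed k]
    (𝔭 : Ideal D.R) (h𝔭 : 𝔭.IsMaximal) :
    ∃ g ∈ M, M ≤ Submodule.span (D.RA k)
      (insert g {y | ∃ p ∈ 𝔭, ∃ x ∈ M, y = D.expR k p * x}) := by
  obtain ⟨s, hs, hsM⟩ := hM.exists_denominator
  have hs' : D.expR k s ≠ 0 := fun h => hs (D.exp_injective (by
    rw [map_zero]
    ext i
    simpa [coeff_expR] using congrArg (fun y : LaurentSeries k => y.coeff i) h))
  let J : Ideal D.R :=
    { carrier := {b | ∃ m ∈ M, D.expR k b = D.expR k s * m}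
      add_mem' := by
        rintro a b ⟨m, hm, ha⟩ ⟨m', hm', hb⟩
        exact ⟨m + m', add_mem hm hm', by rw [mul_add, ← ha, ← hb, D.cell_expR_add]⟩
      zero_mem' := ⟨0, zero_mem M, by simp [expR]⟩
      smul_mem' := by
        rintro c b ⟨m, hm, hb⟩
        exact ⟨D.expR k c * m, D.cell_expR_mul_mem c hm, by
          rw [smul_eq_mul, D.expR_mul, hb, mul_left_comm]⟩ }
  have hJ : J ≠ ⊥ := fun h => hs ((Submodule.eq_bot_iff _).mp h s ⟨1, hM.1, (mul_one _).symm⟩)
  obtain ⟨a, haJ, ha⟩ : ∃ a ∈ J, a ∉ J * 𝔭 := SetLike.exists_of_lt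
    (lt_of_le_of_ne Ideal.mul_le_left fun h => h𝔭.ne_top
      ((mul_left_cancel₀ hJ (h.trans (mul_one J).symm)).trans Ideal.one_eq_top))
  obtain ⟨g, hg, hga⟩ := haJ
  refine ⟨g, hg, fun m hm => ?_⟩
  obtain ⟨X, hX⟩ : J ∣ Ideal.span {a} ⊔ J * 𝔭 := Ideal.dvd_iff_le.mpr
    (sup_le (Ideal.span_le.mpr (Set.singleton_subset_iff.mpr ⟨g, hg, hga⟩)) Ideal.mul_le_left)
  have hpX : 𝔭 ≤ X := Ideal.dvd_iff_le.mp ((mul_dvd_mul_iff_left hJ).mp
    (Ideal.dvd_iff_le.mpr (hX ▸ le_sup_right : J * 𝔭 ≤ J * X)))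
  have hXtop : X = ⊤ := by
    by_contra hne
    rw [← h𝔭.eq_of_le hne hpX] at hX
    exact ha (hX ▸ Submodule.mem_sup_left (Ideal.mem_span_singleton_self a))
  rw [hXtop, ← Ideal.one_eq_top, mul_one] at hX
  obtain ⟨b, hb⟩ := hsM m hm
  have hbJ : b ∈ Ideal.span {a} ⊔ J * 𝔭 := hX.symm ▸ (⟨m, hm, hb.symm⟩ : b ∈ J)
  obtain ⟨y, hy, w, hw, rfl⟩ := Submodule.mem_sup.mp hbJ
  obtain ⟨c, rfl⟩ := Ideal.mem_span_singleton'.mp hy
  set W := Submodule.span (D.RA k) (insert g {y | ∃ p ∈ 𝔭, ∃ x ∈ M, y = D.expR k p * x})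
  obtain ⟨z, hz, hzw⟩ : ∃ z ∈ W, D.expR k w = D.expR k s * z := by
    refine Submodule.mul_induction_on hw (fun j hj q hq => ?_) ?_
    · obtain ⟨x, hx, hjx⟩ := hj
      exact ⟨D.expR k q * x, Submodule.subset_span (Or.inr ⟨q, hq, x, hx, rfl⟩), by
        rw [D.expR_mul, hjx, mul_comm _ (D.expR k q), mul_left_comm]⟩
    · rintro u v ⟨z, hz, hzu⟩ ⟨z', hz', hzv⟩
      exact ⟨z + z', add_mem hz hz', by rw [mul_add, ← hzu, ← hzv, D.cell_expR_add]⟩
  have hgW : g ∈ W := Submodule.subset_span (Or.inl rfl)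
  have hmeq : m = D.expR k c * g + z := mul_left_cancel₀ hs' (by
    rw [hb, D.cell_expR_add, D.expR_mul, hga, hzw]
    ring)
  rw [hmeq]
  exact add_mem (D.cell_expR_mul_mem c hgW) hz

theorem InCell.sub_mem_smul_of_lsMap_eq (hM : D.InCell M) {P : Ideal (D.RA A)} {φ : A →ₐ[k] k}
    (hP : ∀ a : A, φ a = 0 → (a ⊗ₜ[k] (1 : D.R) : D.RA A) ∈ P) {x y : LaurentSeries A}
    (hx : x ∈ M) (hy : y ∈ M) (h : lsMap φ.toRingHom x = lsMap φ.toRingHom y) :
    x - y ∈ P • M := by
  obtain ⟨L, hL⟩ := exists_coeff_eq_zero_below (x - y)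
  rw [hM.eq_cellComb (sub_mem hx hy) hL]
  refine Submodule.sum_mem _ fun l _ => ?_
  have ha : φ ((x - y).coeff (-(l : ℤ))) = 0 := by
    have := congrArg (fun z : LaurentSeries k => z.coeff (-(l : ℤ))) h
    simp only [coeff_lsMap] at this
    rw [HahnSeries.coeff_sub, map_sub]
    exact sub_eq_zero.mpr this
  have := Submodule.smul_mem_smul (hP _ ha) (hM.vec_mem l)
  rwa [D.cell_smul_tmul, D.expR_one, one_mul] at this

/-- Points of the cell with coefficients of finite type are invertible. -/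
theorem InCell.isUnit_of_finiteType [IsAlgClosed k] [Algebra.FiniteType k A] (hM : D.InCell M) :
    IsUnit M := by
  refine IsUnit.of_mul_eq_one (1 / M) (le_antisymm Submodule.mul_one_div_le_one ?_)
  rw [Submodule.one_le]
  set I : Ideal (D.RA A) := (M * (1 / M)).comap (Algebra.linearMap (D.RA A) (LaurentSeries A))
  suffices hI : I = ⊤ by
    have h : (1 : D.RA A) ∈ I := hI ▸ Submodule.mem_top
    simpa [I] using h
  by_contra hne
  obtain ⟨P, hP, hIP⟩ := Ideal.exists_le_maximal I hne
  -- the rational point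
  have : Algebra.FiniteType k (D.RA A) := Algebra.FiniteType.trans (S := A) inferInstance inferInstance
  have : Module.Finite k (D.RA A ⧸ P) := by
    let := Ideal.Quotient.field P
    exact finite_of_finite_type_of_isJacobsonRing k (D.RA A ⧸ P)
  have hbij : Function.Bijective (algebraMap k (D.RA A ⧸ P)) :=
    IsAlgClosed.algebraMap_bijective_of_isIntegral
  let ψ : D.RA A →ₐ[k] k :=
    (AlgEquiv.ofBijective (Algebra.ofId k (D.RA A ⧸ P)) hbij).symm.toAlgHom.comp
      (Ideal.Quotient.mkₐ k P)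
  have hψ : ∀ q, q ∈ P ↔ ψ q = 0 := fun q => by
    rw [← Ideal.Quotient.eq_zero_iff_mem]
    exact (map_eq_zero_iff _
      (AlgEquiv.ofBijective (Algebra.ofId k (D.RA A ⧸ P)) hbij).symm.injective).symm
  let φ : A →ₐ[k] k := ψ.comp Algebra.TensorProduct.includeLeft
  let χ : D.R →ₐ[k] k := ψ.comp Algebra.TensorProduct.includeRight
  have hφP : ∀ a : A, φ a = 0 → (a ⊗ₜ[k] (1 : D.R) : D.RA A) ∈ P := fun a ha => (hψ _).mpr ha
  obtain ⟨g₀, hg₀, hgen⟩ := (hM.bc φ).exists_local_generator (RingHom.ker χ.toRingHom)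
    (RingHom.ker_isMaximal_of_surjective χ.toRingHom fun c => ⟨algebraMap k D.R c, χ.commutes c⟩)
  obtain ⟨g, hg, rfl⟩ := D.lsMap_mem_bc_lift φ hg₀
  set U : D.Sub A := Submodule.span (D.RA A) {g} ⊔ P • M with hU
  have hUM : U ≤ M :=
    sup_le ((Submodule.span_singleton_le_iff_mem _ _).mpr hg) Submodule.smul_le_right
  have hgenU : D.bc φ M ≤ D.bc φ U := by
    refine hgen.trans (Submodule.span_le.mpr ?_)
    rintro y (rfl | ⟨q, hq, x, hx, rfl⟩)
    · exact subset_bc φ (M := U) (Submodule.mem_sup_left (Submodule.mem_span_singleton_self g))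
    · obtain ⟨y, hy, rfl⟩ := D.lsMap_mem_bc_lift φ hx
      have hqP : ((1 : A) ⊗ₜ[k] q : D.RA A) ∈ P := (hψ _).mpr hq
      have h := subset_bc φ (M := U) (Submodule.mem_sup_right (Submodule.smul_mem_smul hqP hy))
      rwa [D.cell_smul_tmul, one_smul, map_mul, D.lsMap_expR] at h
  have hle : M ≤ U := fun m hm => by
    obtain ⟨v, hv, hvm⟩ := D.lsMap_mem_bc_lift φ (hgenU (subset_bc φ hm))
    rw [← sub_add_cancel m v]
    exact add_mem (Submodule.mem_sup_right
      (hM.sub_mem_smul_of_lsMap_eq hφP hm (hUM hv) hvm.symm)) hv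
  -- Nakayama
  set S := Submodule.span (D.RA A) {g}
  have hN : M.map S.mkQ ≤ P • M.map S.mkQ := by
    rw [← Submodule.map_smul'']
    intro z hz
    obtain ⟨m, hm, rfl⟩ := Submodule.mem_map.mp hz
    obtain ⟨v, hv, w, hw, rfl⟩ := Submodule.mem_sup.mp (hle hm)
    rw [map_add, show S.mkQ v = 0 from (Submodule.Quotient.mk_eq_zero S).mpr hv, zero_add]
    exact Submodule.mem_map_of_mem hw
  obtain ⟨σ, hσ, hkill⟩ :=
    Submodule.exists_sub_one_mem_and_smul_eq_zero_of_fg_of_le_smul P _ (hM.fg.map S.mkQ) hN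
  have hσS : ∀ m ∈ M, ∃ b : D.RA A, D.expA A σ * m = D.expA A b * g := fun m hm => by
    have h := hkill _ (Submodule.mem_map_of_mem hm)
    rw [← map_smul, Submodule.mkQ_apply, Submodule.Quotient.mk_eq_zero,
      Submodule.mem_span_singleton] at h
    obtain ⟨b, hb⟩ := h
    exact ⟨b, hb.symm⟩
  obtain ⟨b, hb⟩ := hσS 1 hM.1
  rw [mul_one] at hb
  have hx : D.expA A (σ * b) ∈ (1 / M : D.Sub A) := by
    rw [Submodule.mem_div_iff_forall_mul_mem]
    intro m hm
    obtain ⟨a, ha⟩ := hσS m hm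
    exact (D.mem_one_iff A).mpr ⟨σ * a, by
      rw [map_mul, map_mul]
      linear_combination D.expA A a * hb - D.expA A b * ha⟩
  have hmem : σ * σ ∈ I := by
    show D.expA A (σ * σ) ∈ M * (1 / M)
    rw [show D.expA A (σ * σ) = g * D.expA A (σ * b) by
      rw [map_mul, map_mul]
      linear_combination D.expA A σ * hb]
    exact Submodule.mul_mem_mul hg hx
  have hσP : σ ∈ P := (hP.isPrime.mem_or_mem (hIP hmem)).elim id id
  exact hP.ne_top ((Ideal.eq_top_iff_one P).mpr (by simpa using sub_mem hσP hσ))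

/-- **Points of the cell are lattices.** -/
theorem InCell.isLat [IsAlgClosed k] (hM : D.InCell M) : D.IsLat M := by
  have := D.finiteType_cellRing
  have h : D.IsLat D.univCell := ⟨D.inCell_univCell.isUnit_of_finiteType,
    ⟨1, 1, one_ne_zero, isUnitSeries_one, by simpa using D.inCell_univCell.1⟩⟩
  simpa [hM.bc_cellHom] using h.bc hM.cellHom

end FermatAgent.Jacobian.CurveDatum
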