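import Fermat.Agent.Jacobian.Cell.Invertible
import Mathlib.LinearAlgebra.TensorProduct.RightExactness
import Mathlib.RingTheory.Idempotents
import Mathlib.RingTheory.Smooth.Basic
import Mathlib.RingTheory.FinitePresentation

/-!
# The cell is smooth

A point of the cell over `B ⧸ I` with `I ^ 2 = 0` is a lattice, so it is the image of an idempotent
matrix. The matrix lifts to `B`; the span of the lifted generators is again complementary to the
series vanishing at the origin, and normalising it gives a lift of the point.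
-/

set_option autoImplicit false

noncomputable section

universe u

namespace FermatAgent.Jacobian.CurveDatum

open scoped TensorProduct

variable {k : Type u} [Field k] (D : CurveDatum k) {A B : Type u} [CommRing A] [Algebra k A]
  [CommRing B] [Algebra k B]

theorem lsMap_surjective {g : A →+* B} (hg : Function.Surjective g) :
    Function.Surjective (lsMap g) := by
  classical
  intro x
  refine ⟨⟨fun i => if x.coeff i = 0 then 0 else Function.surjInv hg (x.coeff i),
    x.isPWO_support.mono fun i hi => ?_⟩, ?_⟩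
  · simp only [Function.mem_support, ne_eq, ite_eq_left_iff, not_forall] at hi
    exact hi.1
  · ext i
    rw [coeff_lsMap]
    show g (if x.coeff i = 0 then 0 else _) = _
    split
    · next h => rw [map_zero, h]
    · exact Function.surjInv_eq hg _

variable {D}

theorem exists_mem_of_mem_bc {f : A →ₐ[k] B} (hf : Function.Surjective f) {M : D.Sub A}
    {y : LaurentSeries B} (hy : y ∈ D.bc f M) : ∃ x ∈ M, lsMap f.toRingHom x = y := by
  replace hy := D.exists_sum_of_mem_bc f hy
  induction hy using Submodule.span_induction with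
  | mem z hz => exact hz
  | zero => exact ⟨0, zero_mem M, map_zero _⟩
  | add y z _ _ hy hz =>
    obtain ⟨u, hu, rfl⟩ := hy
    obtain ⟨v, hv, rfl⟩ := hz
    exact ⟨u + v, add_mem hu hv, map_add _ _ _⟩
  | smul b z _ hz =>
    obtain ⟨u, hu, rfl⟩ := hz
    obtain ⟨a, rfl⟩ := hf b
    exact ⟨a • u, D.cell_coeff_smul_mem a hu, by rw [lsMap_smul]; rfl⟩

variable (D)

theorem ker_mapRA {f : A →ₐ[k] B} (hf : Function.Surjective f) :
    RingHom.ker (D.mapRA f) =
      (RingHom.ker f).map (Algebra.TensorProduct.includeLeft : A →ₐ[k] D.RA A) := by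
  have h : RingHom.ker (AlgHom.id k D.R) = ⊥ :=
    (RingHom.injective_iff_ker_eq_bot _).mp fun _ _ h => h
  rw [mapRA, Algebra.TensorProduct.map_ker _ _ hf Function.surjective_id, h, Ideal.map_bot,
    sup_bot_eq]

theorem mul_eq_zero_of_mem_ker_mapRA {f : A →ₐ[k] B} (hf : Function.Surjective f)
    (h2 : RingHom.ker f ^ 2 = ⊥) {x y : D.RA A} (hx : D.mapRA f x = 0) (hy : D.mapRA f y = 0) :
    x * y = 0 := by
  have h : x * y ∈ RingHom.ker (D.mapRA f) ^ 2 := by
    rw [pow_two]
    exact Ideal.mul_mem_mul hx hy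
  rwa [D.ker_mapRA hf, ← Ideal.map_pow, h2, Ideal.map_bot, Ideal.mem_bot] at h

variable {D}

/-- A projective lift: generators fixed by a lift of the idempotent matrix of the lattice. -/
theorem exists_lift_generators {f : A →ₐ[k] B} (hf : Function.Surjective f)
    (h2 : RingHom.ker f ^ 2 = ⊥) {N : D.Sub B} (hN : IsUnit N) :
    ∃ M : D.Sub A, D.bc f M = N ∧ ∀ y ∈ M, lsMap f.toRingHom y = 0 →
      y ∈ (RingHom.ker (D.mapRA f)) • M := by
  classical
  obtain ⟨J, _, m, w, c, hm, -, hc⟩ := D.exists_frame hN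
  let E₀ : Matrix J J (D.RA B) := Matrix.of fun i j => c i ⟨m j, hm j⟩
  have hE₀ : IsIdempotentElem E₀ := by
    show E₀ * E₀ = E₀
    refine Matrix.ext fun i l => ?_
    rw [Matrix.mul_apply]
    show ∑ j, c i ⟨m j, hm j⟩ * c j ⟨m l, hm l⟩ = c i ⟨m l, hm l⟩
    have : (∑ j, c j ⟨m l, hm l⟩ • (⟨m j, hm j⟩ : N)) = ⟨m l, hm l⟩ := Subtype.ext (by
      rw [Submodule.coe_sum]
      exact hc ⟨m l, hm l⟩)
    conv_rhs => rw [← this, map_sum]
    refine Finset.sum_congr rfl fun j _ => ?_
    rw [map_smul, smul_eq_mul, mul_comm]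
  have hπ : Function.Surjective (D.mapRA f) :=
    Algebra.TensorProduct.map_surjective _ _ hf Function.surjective_id
  obtain ⟨E, hE, hEf⟩ := exists_isIdempotentElem_eq_of_ker_isNilpotent
    (D.mapRA f).toRingHom.mapMatrix (fun X hX => ⟨2, by
      refine Matrix.ext fun i l => ?_
      rw [pow_two, Matrix.mul_apply, Matrix.zero_apply]
      refine Finset.sum_eq_zero fun j _ => D.mul_eq_zero_of_mem_ker_mapRA hf h2 ?_ ?_
      · exact congrFun (congrFun hX i) j
      · exact congrFun (congrFun hX j) l⟩)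
    E₀ ⟨Matrix.of fun i j => Function.surjInv hπ (E₀ i j),
      Matrix.ext fun i j => Function.surjInv_eq hπ _⟩ hE₀
  choose m' hm' using fun j => lsMap_surjective (g := f.toRingHom) hf (m j)
  let g : J → LaurentSeries A := fun l => ∑ i, E i l • m' i
  have hEfij : ∀ i j, D.mapRA f (E i j) = E₀ i j := fun i j => congrFun (congrFun hEf i) j
  have hg : ∀ l, lsMap f.toRingHom (g l) = m l := fun l => by
    rw [map_sum]
    simp only [D.lsMap_smul_RA, hm', hEfij]
    exact hc ⟨m l, hm l⟩
  refine ⟨Submodule.span (D.RA A) (Set.range g), le_antisymm (Submodule.span_le.mpr ?_)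
    (fun x hx => ?_), fun y hy hy0 => ?_⟩
  · rintro _ ⟨y, hy, rfl⟩
    obtain ⟨p, rfl⟩ := (Submodule.mem_span_range_iff_exists_fun _).mp hy
    rw [SetLike.mem_coe, map_sum]
    exact Submodule.sum_mem _ fun l _ => by
      rw [D.lsMap_smul_RA, hg]
      exact N.smul_mem _ (hm l)
  · rw [← show ∑ j, c j ⟨x, hx⟩ • m j = x from hc ⟨x, hx⟩]
    exact Submodule.sum_mem _ fun l _ => Submodule.smul_mem _ _
      (Submodule.subset_span ⟨g l, Submodule.subset_span ⟨l, rfl⟩, hg l⟩)
  · obtain ⟨p, rfl⟩ := (Submodule.mem_span_range_iff_exists_fun _).mp hy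
    have hfix : ∀ j, g j = ∑ i, E i j • g i := fun j => by
      simp only [g, Finset.smul_sum, smul_smul]
      rw [Finset.sum_comm]
      refine Finset.sum_congr rfl fun i _ => ?_
      rw [← Finset.sum_smul]
      congr 1
      have := congrFun (congrFun hE i) j
      rw [Matrix.mul_apply] at this
      rw [← this]
      exact Finset.sum_congr rfl fun a _ => mul_comm _ _
    rw [Finset.sum_congr rfl fun j _ => show p j • g j = ∑ i, (p j * E i j) • g i by
      conv_lhs => rw [hfix j]
      simp only [Finset.smul_sum, smul_smul], Finset.sum_comm]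
    simp only [← Finset.sum_smul]
    refine Submodule.sum_mem _ fun i _ => Submodule.smul_mem_smul ?_
      (Submodule.subset_span ⟨i, rfl⟩)
    have h0 : ∑ j, D.mapRA f (p j) • (⟨m j, hm j⟩ : N) = 0 := Subtype.ext (by
      rw [map_sum] at hy0
      simpa only [Submodule.coe_sum, Submodule.coe_smul, Submodule.coe_zero, D.lsMap_smul_RA, hg]
        using hy0)
    have h1 := congrArg (c i) h0
    rw [map_sum, map_zero] at h1
    show D.mapRA f (∑ j, p j * E i j) = 0
    rw [map_sum, ← h1]
    exact Finset.sum_congr rfl fun j _ => by rw [map_mul, hEfij, map_smul]; rfl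

theorem lsMap_cellComb {n : ℕ → LaurentSeries A} {v : ℕ → LaurentSeries B} {f : A →ₐ[k] B}
    (hn : ∀ l, lsMap f.toRingHom (n l) = v l) (L : ℕ) (x : LaurentSeries A) :
    lsMap f.toRingHom (cellComb n L x) = cellComb v L (lsMap f.toRingHom x) := by
  simp only [cellComb, map_sum, lsMap_smul, hn, coeff_lsMap]

theorem cellComb_add (n : ℕ → LaurentSeries A) (L : ℕ) (x y : LaurentSeries A) :
    cellComb n L (x + y) = cellComb n L x + cellComb n L y := by
  simp only [cellComb, HahnSeries.coeff_add, add_smul, Finset.sum_add_distrib]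

/-- A projective lift of a point of the cell has no cohomology. -/
theorem compl_of_lift {f : A →ₐ[k] B} (hf : Function.Surjective f)
    (h2 : RingHom.ker f ^ 2 = ⊥) {N : D.Sub B} (hN : D.InCell N) {M : D.Sub A}
    (hMN : D.bc f M = N) (hker : ∀ y ∈ M, lsMap f.toRingHom y = 0 →
      y ∈ (RingHom.ker (D.mapRA f)) • M) : D.Compl M 1 := by
  choose n hn hnv using fun l => exists_mem_of_mem_bc hf (hMN ▸ hN.vec_mem l : hN.vec l ∈ D.bc f M)
  have hII : ∀ a b : A, f a = 0 → f b = 0 → a * b = 0 := fun a b ha hb => by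
    have h : a * b ∈ RingHom.ker f ^ 2 := by
      rw [pow_two]
      exact Ideal.mul_mem_mul ha hb
    rwa [h2, Ideal.mem_bot] at h
  refine ⟨fun x => ?_, fun y hy hy1 => ?_⟩
  · obtain ⟨z, hz, hxz⟩ := hN.2.1 (lsMap f.toRingHom x)
    obtain ⟨z', hz', rfl⟩ := exists_mem_of_mem_bc hf (hMN ▸ hz)
    set d := x - z'
    obtain ⟨L, hL⟩ := exists_coeff_eq_zero_below d
    refine ⟨z' + cellComb n L d, add_mem hz' (Submodule.sum_mem _ fun l _ =>
      D.cell_coeff_smul_mem _ (hn l)), fun i hi => ?_⟩
    rw [← sub_sub, HahnSeries.coeff_sub, coeff_cellComb]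
    have hd : ∀ j : ℤ, j ≤ 0 → f (d.coeff j) = 0 := fun j hj => by
      have := hxz j (by omega)
      rwa [← map_sub, coeff_lsMap] at this
    have key : ∀ l : ℕ, d.coeff (-(l : ℤ)) * (n l).coeff i =
        d.coeff (-(l : ℤ)) * if i = -(l : ℤ) then 1 else 0 := fun l => by
      rw [← sub_eq_zero, ← mul_sub]
      refine hII _ _ (hd _ (by omega)) ?_
      have h := congrArg (fun y : LaurentSeries B => y.coeff i) (hnv l)
      simp only [coeff_lsMap, hN.isNormalised_vec l i (by omega)] at h
      rw [map_sub, show f ((n l).coeff i) = _ from h]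
      split <;> simp
    simp only [key, mul_ite, mul_one, mul_zero]
    by_cases h : -(L : ℤ) ≤ i
    · rw [Finset.sum_eq_single (-i).toNat, if_pos (by omega), Int.toNat_of_nonneg (by omega),
        neg_neg, sub_self]
      · intro l _ hl
        rw [if_neg (by omega)]
      · intro hl
        exact absurd (Finset.mem_range.mpr (by omega)) hl
    · rw [Finset.sum_eq_zero fun l hl => if_neg (by rw [Finset.mem_range] at hl; omega),
        hL i (by omega), sub_zero]
  · have hy0 : lsMap f.toRingHom y = 0 :=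
      hN.2.2 _ (hMN ▸ subset_bc f hy) (lsMap_mem_fil f.toRingHom hy1)
    have key : ∀ q ∈ RingHom.ker (D.mapRA f), ∀ z ∈ M,
        ∃ L₀, ∀ L, L₀ ≤ L → q • z = cellComb n L (q • z) := by
      rw [D.ker_mapRA hf]
      intro q hq
      induction hq using Submodule.span_induction with
      | mem q hq =>
        obtain ⟨a, ha, rfl⟩ := hq
        intro z hz
        obtain ⟨L₀, hL₀⟩ := exists_coeff_eq_zero_below z
        refine ⟨L₀, fun L hL => ?_⟩
        have e : (a ⊗ₜ[k] (1 : D.R) : D.RA A) • z = a • z := by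
          rw [D.cell_smul_tmul, D.expR_one, one_mul]
        rw [show (Algebra.TensorProduct.includeLeft : A →ₐ[k] D.RA A) a =
          a ⊗ₜ[k] (1 : D.R) from rfl, e]
        have hred : lsMap f.toRingHom (z - cellComb n L z) = 0 := by
          rw [map_sub, lsMap_cellComb hnv, sub_eq_zero]
          refine hN.eq_cellComb (hMN ▸ subset_bc f hz) fun i hi => ?_
          rw [coeff_lsMap, hL₀ i (by omega), map_zero]
        have hzero : a • (z - cellComb n L z) = 0 := by
          ext i
          rw [HahnSeries.coeff_smul, smul_eq_mul, HahnSeries.coeff_zero]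
          exact hII _ _ ha (congrArg (fun y : LaurentSeries B => y.coeff i) hred)
        rw [smul_sub, sub_eq_zero] at hzero
        refine hzero.trans ?_
        simp only [cellComb, Finset.smul_sum, smul_smul, HahnSeries.coeff_smul, smul_eq_mul]
      | zero =>
        intro z _
        exact ⟨0, fun L _ => by simp [cellComb]⟩
      | add q q' _ _ hq hq' =>
        intro z hz
        obtain ⟨L₁, h₁⟩ := hq z hz
        obtain ⟨L₂, h₂⟩ := hq' z hz
        refine ⟨max L₁ L₂, fun L hL => ?_⟩
        rw [add_smul, cellComb_add, ← h₁ L (le_trans (le_max_left _ _) hL),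
          ← h₂ L (le_trans (le_max_right _ _) hL)]
      | smul s q _ hq =>
        intro z hz
        rw [smul_eq_mul, mul_comm, mul_smul]
        exact hq (s • z) (M.smul_mem s hz)
    obtain ⟨L₀, h⟩ : ∃ L₀, ∀ L, L₀ ≤ L → y = cellComb n L y := by
      refine Submodule.smul_induction_on (hker y hy hy0) key fun u v hu hv => ?_
      obtain ⟨L₁, h₁⟩ := hu
      obtain ⟨L₂, h₂⟩ := hv
      refine ⟨max L₁ L₂, fun L hL => ?_⟩
      rw [cellComb_add, ← h₁ L (le_trans (le_max_left _ _) hL),
        ← h₂ L (le_trans (le_max_right _ _) hL)]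
    rw [h L₀ le_rfl, cellComb]
    exact Finset.sum_eq_zero fun l _ => by rw [hy1 _ (by omega), zero_smul]

/-- Points of the cell lift along square zero extensions. -/
theorem InCell.exists_lift [IsAlgClosed k] {f : A →ₐ[k] B} (hf : Function.Surjective f)
    (h2 : RingHom.ker f ^ 2 = ⊥) {N : D.Sub B} (hN : D.InCell N) :
    ∃ M : D.Sub A, D.InCell M ∧ D.bc f M = N := by
  obtain ⟨M, hMN, hker⟩ := exists_lift_generators hf h2 hN.isLat.isUnit
  have hC := compl_of_lift hf h2 hN hMN hker
  obtain ⟨e, ⟨he, he'⟩, -⟩ := hC.existsUnique_unit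
  obtain ⟨w, -, hew⟩ := (isUnitSeries_of_sub_one_mem he').exists_inv
  refine ⟨_, hC.inCell he he' hew, ?_⟩
  have h1 : lsMap f.toRingHom e = 1 := hN.eq_of_sub_mem (hMN ▸ subset_bc f he) hN.1 (by
    rw [← map_one (lsMap f.toRingHom), ← map_sub]
    exact lsMap_mem_fil f.toRingHom he')
  have h2 := congrArg (lsMap f.toRingHom) hew
  rw [map_mul, h1, one_mul, map_one] at h2
  rw [bc_mul, bc_span_singleton, hMN, h2, span_singleton_one, mul_one]

variable (D) in
/-- **The cell is smooth.** -/
theorem smooth_cellRing [IsAlgClosed k] : Algebra.Smooth k D.CellRing := by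
  refine ⟨.of_comp_surjective fun C _ _ I hI φ => ?_,
    Algebra.FinitePresentation.of_finiteType.mp D.finiteType_cellRing⟩
  have hker : RingHom.ker (Ideal.Quotient.mkₐ k I) ^ 2 = ⊥ := by
    rw [show RingHom.ker (Ideal.Quotient.mkₐ k I) = I from Ideal.mk_ker]
    exact hI
  obtain ⟨M, hM, hMN⟩ := (D.cellEquiv φ).2.exists_lift
    (Ideal.Quotient.mkₐ_surjective k I) hker
  refine ⟨hM.cellHom, D.cellEquiv.injective (Subtype.ext ?_)⟩
  rw [← D.bc_cellEquiv, show (D.cellEquiv hM.cellHom).1 = M from hM.bc_cellHom]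
  exact hMN

end FermatAgent.Jacobian.CurveDatum
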