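import Fermat.Agent.Jacobian.Lat.Lattice

/-!
# Points of the big cell

A point of the cell has a basis over the coefficients indexed by `l : ℕ`: the element congruent to
`t ^ (-l)` modulo series vanishing at the origin. Conversely a family of such series stable under
the ring of the affine curve spans a point of the cell; in particular the cell is functorial.
-/

set_option autoImplicit false

noncomputable section

universe u

namespace FermatAgent.Jacobian

open scoped TensorProduct

section Series

variable {A : Type u} [CommRing A]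

/-- A series vanishes far to the left. -/
theorem exists_coeff_eq_zero_below (x : LaurentSeries A) :
    ∃ L : ℕ, ∀ i : ℤ, i < -(L : ℤ) → x.coeff i = 0 := by
  refine ⟨x.order.natAbs, fun i hi => HahnSeries.coeff_eq_zero_of_lt_order ?_⟩
  omega

theorem sum_coeff {ι : Type*} (s : Finset ι) (f : ι → LaurentSeries A) (i : ℤ) :
    (∑ j ∈ s, f j).coeff i = ∑ j ∈ s, (f j).coeff i :=
  map_sum ({ toFun := fun x : LaurentSeries A => x.coeff i, map_zero' := rfl,
             map_add' := fun _ _ => rfl } : LaurentSeries A →+ A) f s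

end Series

namespace CurveDatum

variable {k : Type u} [Field k] (D : CurveDatum k) {A : Type u} [CommRing A] [Algebra k A]

theorem cell_smul_tmul (a : A) (r : D.R) (x : LaurentSeries A) :
    (a ⊗ₜ[k] r : D.RA A) • x = a • (D.expR A r * x) := by
  rw [Algebra.smul_def, show algebraMap (D.RA A) (LaurentSeries A) (a ⊗ₜ[k] r) =
    D.expA A (a ⊗ₜ[k] r) from rfl, D.expA_tmul, ← HahnSeries.C_mul_eq_smul, mul_assoc]
  rfl

theorem expR_algebraMap (c : k) : D.expR A (algebraMap k D.R c) = HahnSeries.C (algebraMap k A c) := by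
  rw [expR, D.exp_algebraMap, lsMap_C]

theorem cell_coeff_smul_mem {M : D.Sub A} (a : A) {x : LaurentSeries A} (hx : x ∈ M) :
    a • x ∈ M := by
  have h := M.smul_mem (a ⊗ₜ[k] (1 : D.R)) hx
  rwa [D.cell_smul_tmul, D.expR_one, one_mul] at h

theorem cell_expR_mul_mem {M : D.Sub A} (r : D.R) {x : LaurentSeries A} (hx : x ∈ M) :
    D.expR A r * x ∈ M := by
  have h := M.smul_mem ((1 : A) ⊗ₜ[k] r) hx
  rwa [D.cell_smul_tmul, one_smul] at h

/-- The coefficients up to the origin of a normalised family. -/
def IsNormalised (v : ℕ → LaurentSeries A) : Prop :=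
  ∀ l : ℕ, ∀ i : ℤ, i ≤ 0 → (v l).coeff i = if i = -(l : ℤ) then 1 else 0

/-- The finite combination with the coefficients of `x` at and below the origin. -/
def cellComb (v : ℕ → LaurentSeries A) (L : ℕ) (x : LaurentSeries A) : LaurentSeries A :=
  ∑ l ∈ Finset.range (L + 1), x.coeff (-(l : ℤ)) • v l

theorem coeff_cellComb (v : ℕ → LaurentSeries A) (L : ℕ) (x : LaurentSeries A) (i : ℤ) :
    (cellComb v L x).coeff i =
      ∑ l ∈ Finset.range (L + 1), x.coeff (-(l : ℤ)) * (v l).coeff i := by
  rw [cellComb, sum_coeff]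
  simp

theorem sub_cellComb_mem_fil {v : ℕ → LaurentSeries A} (hv : IsNormalised v) {L : ℕ}
    {x : LaurentSeries A} (hL : ∀ i : ℤ, i < -(L : ℤ) → x.coeff i = 0) :
    x - cellComb v L x ∈ fil A 1 := by
  intro i hi
  rw [HahnSeries.coeff_sub, coeff_cellComb, Finset.sum_congr rfl fun l _ => by
    rw [hv l i (by omega)]]
  simp only [mul_ite, mul_one, mul_zero]
  by_cases h : -(L : ℤ) ≤ i
  · rw [Finset.sum_eq_single (-i).toNat, if_pos (by omega), Int.toNat_of_nonneg (by omega), neg_neg,
      sub_self]
    · intro l _ hl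
      rw [if_neg (by omega)]
    · intro hl
      exact absurd (Finset.mem_range.mpr (by omega)) hl
  · rw [Finset.sum_eq_zero fun l hl => if_neg (by rw [Finset.mem_range] at hl; omega),
      hL i (by omega), sub_zero]

theorem eq_zero_of_mem_span_fil {v : ℕ → LaurentSeries A} (hv : IsNormalised v)
    {x : LaurentSeries A} (hx : x ∈ Submodule.span A (Set.range v)) (h : x ∈ fil A 1) : x = 0 := by
  obtain ⟨c, rfl⟩ := Finsupp.mem_span_range_iff_exists_finsupp.mp hx
  refine Finset.sum_eq_zero fun l hl => ?_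
  have h1 := h (-(l : ℤ)) (by omega)
  rw [Finsupp.sum, sum_coeff, Finset.sum_eq_single l] at h1
  · rw [HahnSeries.coeff_smul, hv l _ (by omega), if_pos rfl, smul_eq_mul, mul_one] at h1
    rw [h1]
    exact zero_smul A (v l)
  · intro b _ hb
    rw [HahnSeries.coeff_smul, hv b _ (by omega), if_neg (by omega), smul_zero]
  · exact fun h' => absurd hl h'

theorem cellComb_mem_span (v : ℕ → LaurentSeries A) (L : ℕ) (x : LaurentSeries A) :
    cellComb v L x ∈ Submodule.span A (Set.range v) :=
  Submodule.sum_mem _ fun l _ => Submodule.smul_mem _ _ (Submodule.subset_span ⟨l, rfl⟩)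

/-- The submodule spanned by a stable family. -/
def cellSub (v : ℕ → LaurentSeries A)
    (hstab : ∀ (r : D.R) (l : ℕ), D.expR A r * v l ∈ Submodule.span A (Set.range v)) : D.Sub A where
  carrier := Submodule.span A (Set.range v)
  add_mem' := add_mem
  zero_mem' := zero_mem _
  smul_mem' s x hx := by
    induction s using TensorProduct.induction_on with
    | zero =>
      rw [zero_smul]
      exact zero_mem _
    | tmul a r =>
      rw [D.cell_smul_tmul]
      refine Submodule.smul_mem _ a ?_
      induction hx using Submodule.span_induction with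
      | mem y hy =>
        obtain ⟨l, rfl⟩ := hy
        exact hstab r l
      | zero =>
        rw [mul_zero]
        exact zero_mem _
      | add y z _ _ hy hz =>
        rw [mul_add]
        exact add_mem hy hz
      | smul b y _ hy =>
        rw [← HahnSeries.C_mul_eq_smul, mul_left_comm, HahnSeries.C_mul_eq_smul]
        exact Submodule.smul_mem _ b hy
    | add s s' hs hs' =>
      rw [add_smul]
      exact add_mem hs hs'

theorem mem_cellSub {v : ℕ → LaurentSeries A}
    {hstab : ∀ (r : D.R) (l : ℕ), D.expR A r * v l ∈ Submodule.span A (Set.range v)}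
    {x : LaurentSeries A} : x ∈ D.cellSub v hstab ↔ x ∈ Submodule.span A (Set.range v) := Iff.rfl

theorem inCell_cellSub {v : ℕ → LaurentSeries A}
    {hstab : ∀ (r : D.R) (l : ℕ), D.expR A r * v l ∈ Submodule.span A (Set.range v)}
    (hv : IsNormalised v) (h0 : v 0 = 1) : D.InCell (D.cellSub v hstab) := by
  refine ⟨D.mem_cellSub.mpr (h0 ▸ Submodule.subset_span ⟨0, rfl⟩), fun x => ?_,
    fun m hm hf => eq_zero_of_mem_span_fil hv (D.mem_cellSub.mp hm) hf⟩
  obtain ⟨L, hL⟩ := exists_coeff_eq_zero_below x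
  exact ⟨cellComb v L x, D.mem_cellSub.mpr (cellComb_mem_span v L x), sub_cellComb_mem_fil hv hL⟩

variable {D} {M : D.Sub A}

/-- The element of a point of the cell congruent to `t ^ (-l)`. -/
def InCell.vec (hM : D.InCell M) (l : ℕ) : LaurentSeries A :=
  (hM.2.1 (HahnSeries.single (-(l : ℤ)) 1)).choose

theorem InCell.vec_mem (hM : D.InCell M) (l : ℕ) : hM.vec l ∈ M :=
  (hM.2.1 (HahnSeries.single (-(l : ℤ)) 1)).choose_spec.1

theorem InCell.isNormalised_vec (hM : D.InCell M) : IsNormalised hM.vec := fun l i hi => by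
  have h := (hM.2.1 (HahnSeries.single (-(l : ℤ)) 1)).choose_spec.2 i (by omega)
  rw [HahnSeries.coeff_sub, sub_eq_zero, HahnSeries.coeff_single] at h
  rw [InCell.vec, ← h]
  congr

theorem InCell.eq_of_sub_mem (hM : D.InCell M) {x y : LaurentSeries A} (hx : x ∈ M) (hy : y ∈ M)
    (h : x - y ∈ fil A 1) : x = y :=
  sub_eq_zero.mp (hM.2.2 _ (sub_mem hx hy) h)

theorem InCell.vec_zero (hM : D.InCell M) : hM.vec 0 = 1 := by
  refine hM.eq_of_sub_mem (hM.vec_mem 0) hM.1 fun i hi => ?_
  rw [HahnSeries.coeff_sub, hM.isNormalised_vec 0 i (by omega), HahnSeries.coeff_one,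
    Nat.cast_zero, neg_zero]
  split <;> simp [*]

theorem InCell.cellComb_mem (hM : D.InCell M) (L : ℕ) (x : LaurentSeries A) :
    cellComb hM.vec L x ∈ M :=
  Submodule.sum_mem _ fun l _ => D.cell_coeff_smul_mem _ (hM.vec_mem l)

theorem InCell.eq_cellComb (hM : D.InCell M) {x : LaurentSeries A} (hx : x ∈ M) {L : ℕ}
    (hL : ∀ i : ℤ, i < -(L : ℤ) → x.coeff i = 0) : x = cellComb hM.vec L x :=
  hM.eq_of_sub_mem hx (hM.cellComb_mem L x) (sub_cellComb_mem_fil hM.isNormalised_vec hL)

theorem InCell.mem_span (hM : D.InCell M) {x : LaurentSeries A} (hx : x ∈ M) :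
    x ∈ Submodule.span A (Set.range hM.vec) := by
  obtain ⟨L, hL⟩ := exists_coeff_eq_zero_below x
  rw [hM.eq_cellComb hx hL]
  exact cellComb_mem_span _ _ _

theorem InCell.expR_mul_vec_mem (hM : D.InCell M) (r : D.R) (l : ℕ) :
    D.expR A r * hM.vec l ∈ Submodule.span A (Set.range hM.vec) :=
  hM.mem_span (D.cell_expR_mul_mem r (hM.vec_mem l))

theorem InCell.mem_of_mem_span (hM : D.InCell M) {x : LaurentSeries A}
    (hx : x ∈ Submodule.span A (Set.range hM.vec)) : x ∈ M := by
  induction hx using Submodule.span_induction with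
  | mem y hy =>
    obtain ⟨l, rfl⟩ := hy
    exact hM.vec_mem l
  | zero => exact zero_mem _
  | add y z _ _ hy hz => exact add_mem hy hz
  | smul a y _ hy => exact D.cell_coeff_smul_mem a hy

/-- A point of the cell is determined by its normalised family. -/
theorem InCell.ext (hM : D.InCell M) {M' : D.Sub A} (hM' : D.InCell M')
    (h : hM.vec = hM'.vec) : M = M' :=
  Submodule.ext fun _ => ⟨fun hx => hM'.mem_of_mem_span (h ▸ hM.mem_span hx),
    fun hx => hM.mem_of_mem_span (h ▸ hM'.mem_span hx)⟩

theorem InCell.vec_eq (hM : D.InCell M) {v : ℕ → LaurentSeries A} (hv : IsNormalised v)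
    (h : ∀ l, v l ∈ M) : hM.vec = v :=
  funext fun l => hM.eq_of_sub_mem (hM.vec_mem l) (h l) fun i hi => by
    rw [HahnSeries.coeff_sub, hM.isNormalised_vec l i (by omega), hv l i (by omega), sub_self]

/-- **Normalisation.** A complementary submodule has a unique element congruent to one. -/
theorem Compl.existsUnique_unit (h : D.Compl M 1) :
    ∃! e, e ∈ M ∧ e - 1 ∈ fil A 1 := by
  obtain ⟨e, he, he'⟩ := h.1 1
  have he'' : e - 1 ∈ fil A 1 := by
    rw [← neg_sub]
    exact neg_mem he'
  refine ⟨e, ⟨he, he''⟩, fun f ⟨hf, hf'⟩ => sub_eq_zero.mp (h.2 _ (sub_mem hf he) ?_)⟩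
  rw [show f - e = (f - 1) - (e - 1) by abel]
  exact sub_mem hf' he''

theorem isUnitSeries_of_sub_one_mem {e : LaurentSeries A} (he : e - 1 ∈ fil A 1) :
    IsUnitSeries A e := by
  refine ⟨?_, fun i hi => ?_⟩
  · have h := he 0 one_pos
    rw [HahnSeries.coeff_sub, sub_eq_zero, HahnSeries.coeff_one, if_pos rfl] at h
    rw [h]
    exact isUnit_one
  · have h := he i (by omega)
    rwa [HahnSeries.coeff_sub, HahnSeries.coeff_one, if_neg (by omega), sub_zero] at h

/-- Dividing a complementary submodule by its element congruent to one gives a point of the cell. -/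
theorem Compl.inCell (h : D.Compl M 1) {e w : LaurentSeries A} (he : e ∈ M)
    (he' : e - 1 ∈ fil A 1) (hew : e * w = 1) :
    D.InCell (M * Submodule.span (D.RA A) {w}) := by
  have heu := isUnitSeries_of_sub_one_mem he'
  have hw : w ∈ fil A 0 := by
    obtain ⟨w', hw', hew'⟩ := heu.exists_inv
    have hww : w = w' := by linear_combination w' * hew - w * hew'
    rw [hww]
    exact hw'.2
  refine ⟨D.mem_mul_singleton.mpr ⟨e, he, hew⟩, fun x => ?_, fun m hm hf => ?_⟩
  · obtain ⟨m, hm, hx⟩ := h.1 (e * x)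
    refine ⟨m * w, D.mem_mul_singleton.mpr ⟨m, hm, rfl⟩, ?_⟩
    have := mul_mem_fil hx hw
    rwa [add_zero, sub_mul, mul_assoc, mul_comm x w, ← mul_assoc, hew, one_mul] at this
  · obtain ⟨m', hm', rfl⟩ := D.mem_mul_singleton.mp hm
    have := mul_mem_fil hf heu.2
    rw [add_zero, mul_assoc, mul_comm w e, hew, mul_one] at this
    rw [h.2 m' hm' this, zero_mul]

section BaseChange

variable {B : Type u} [CommRing B] [Algebra k B] (f : A →ₐ[k] B)

theorem lsMap_mem_span {v : ℕ → LaurentSeries A} {x : LaurentSeries A}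
    (hx : x ∈ Submodule.span A (Set.range v)) :
    lsMap f.toRingHom x ∈ Submodule.span B (Set.range fun l => lsMap f.toRingHom (v l)) := by
  induction hx using Submodule.span_induction with
  | mem y hy =>
    obtain ⟨l, rfl⟩ := hy
    exact Submodule.subset_span ⟨l, rfl⟩
  | zero =>
    rw [map_zero]
    exact zero_mem _
  | add y z _ _ hy hz =>
    rw [map_add]
    exact add_mem hy hz
  | smul a y _ hy =>
    rw [lsMap_smul]
    exact Submodule.smul_mem _ _ hy

/-- The image of a normalised stable family. -/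
def InCell.bcVec (hM : D.InCell M) (l : ℕ) : LaurentSeries B := lsMap f.toRingHom (hM.vec l)

theorem InCell.bcVec_stable (hM : D.InCell M) (r : D.R) (l : ℕ) :
    D.expR B r * hM.bcVec f l ∈ Submodule.span B (Set.range (hM.bcVec f)) := by
  rw [InCell.bcVec, ← D.lsMap_expR f r, ← map_mul]
  exact lsMap_mem_span f (hM.expR_mul_vec_mem r l)

theorem InCell.bc_eq_cellSub (hM : D.InCell M) :
    D.bc f M = D.cellSub (hM.bcVec f) (hM.bcVec_stable f) := by
  refine le_antisymm (Submodule.span_le.mpr ?_) fun x hx => ?_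
  · rintro _ ⟨y, hy, rfl⟩
    exact D.mem_cellSub.mpr (lsMap_mem_span f (hM.mem_span hy))
  · replace hx := D.mem_cellSub.mp hx
    induction hx using Submodule.span_induction with
    | mem y hy =>
      obtain ⟨l, rfl⟩ := hy
      exact Submodule.subset_span ⟨_, hM.vec_mem l, rfl⟩
    | zero => exact zero_mem _
    | add y z _ _ hy hz => exact add_mem hy hz
    | smul a y _ hy => exact D.cell_coeff_smul_mem a hy

theorem InCell.isNormalised_bcVec (hM : D.InCell M) : IsNormalised (hM.bcVec f) := fun l i hi => by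
  rw [InCell.bcVec, coeff_lsMap, hM.isNormalised_vec l i hi]
  split <;> simp

/-- The cell is functorial. -/
theorem InCell.bc (hM : D.InCell M) : D.InCell (D.bc f M) := by
  rw [hM.bc_eq_cellSub f]
  exact D.inCell_cellSub (hM.isNormalised_bcVec f) (by rw [InCell.bcVec, hM.vec_zero, map_one])

theorem InCell.vec_bc (hM : D.InCell M) : (hM.bc f).vec = hM.bcVec f :=
  (hM.bc f).vec_eq (hM.isNormalised_bcVec f) fun l =>
    Submodule.subset_span ⟨_, hM.vec_mem l, rfl⟩

theorem InCell.coeff_vec_bc (hM : D.InCell M) (l : ℕ) (i : ℤ) :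
    ((hM.bc f).vec l).coeff i = f ((hM.vec l).coeff i) := by
  rw [hM.vec_bc f]
  rfl

end BaseChange

end CurveDatum

end FermatAgent.Jacobian
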